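import Fermat.Agent.ML.Ihara.Spec

/-!
# ML / IHARA : `[IH-THETA]` and `[IH-DUAL]`

From `IharaTors N q` (= **[IH-J0]**) and `NonEisAP p S θ`:

* `ihara_theta` : `ι_q = (α^*, β^*)` is injective on the square of the `θ`-part of `J₀(N)[p^∞]`;
* `ihara_dual` : `Π_q = (α_*, β_*)` maps the `p^k`-torsion of the `θ`-part of `J₀(N q)` ONTO the
  square of the `p^k`-torsion of the `θ`-part of `J₀(N)`, for every `k`.
-/

set_option autoImplicit false
set_option linter.unusedSectionVars false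

noncomputable section

open AlgebraicCurve ModularCurve

namespace Fermat.Agent.ML

open Fermat.Agent.RIB Fermat.Agent.GAL Fermat.Agent.GAL.PC

variable {N p : ℕ} [NeZero N] {S : Set ℕ} {θ : ℕ → ℤ}

theorem eis_mem_thetaPart (l : Nat.Primes) {x : JZero N} (hx : x ∈ thetaPart N p S θ) :
    eis N l x ∈ thetaPart N p S θ := by
  rw [eis_apply]
  exact (thetaPart N p S θ).sub_mem (hecke_mem_thetaPart l hx)
    ((thetaPart N p S θ).zsmul_mem hx _)

/-- `T_l - (l+1)` is injective on the `θ`-part if `θ l ≢ l + 1 mod p`. -/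
theorem eq_zero_of_eis_eq_zero (hp : p.Prime) (l : Nat.Primes) (hl : (l : ℕ) ∉ S)
    (hne : ¬ (p : ℤ) ∣ θ l - (((l : ℕ) : ℤ) + 1)) {x : JZero N} (hx : x ∈ thetaPart N p S θ)
    (h0 : eis N l x = 0) : x = 0 := by
  obtain ⟨⟨n, hn⟩, hx2⟩ := hx
  obtain ⟨m, hm⟩ := hx2 l hl
  set c : ℤ := θ l - (((l : ℕ) : ℤ) + 1) with hc
  have h1 : hk N θ l x = (-c) • x := by
    rw [eis_apply, sub_eq_zero] at h0
    rw [hk_apply, h0, ← sub_smul]
    congr 1
    rw [hc]; ring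
  have h2 : ∀ j : ℕ, (hk N θ l ^ j) x = ((-c) ^ j) • x := by
    intro j
    induction j with
    | zero => simp
    | succ j ih =>
      rw [pow_succ, Module.End.mul_apply, h1, map_zsmul, ih, smul_smul, pow_succ, mul_comm]
  rw [h2 m] at hm
  have hcop : IsCoprime ((-c) ^ m) ((p : ℤ) ^ n) := by
    refine IsCoprime.pow ?_
    refine IsCoprime.neg_left ?_
    exact ((Nat.prime_iff_prime_int.mp hp).coprime_iff_not_dvd.mpr hne).symm
  obtain ⟨a, b, hab⟩ := hcop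
  have hn' : ((p : ℤ) ^ n) • x = 0 := by
    have : ((p : ℤ) ^ n) = ((p ^ n : ℕ) : ℤ) := by push_cast; rfl
    rw [this, natCast_zsmul, hn]
  calc x = (1 : ℤ) • x := (one_smul _ _).symm
    _ = (a * (-c) ^ m + b * (p : ℤ) ^ n) • x := by rw [hab]
    _ = 0 := by
      rw [add_zsmul, mul_zsmul, mul_zsmul, hm, hn', zsmul_zero,
        zsmul_zero, add_zero]

variable {q : ℕ} [NeZero q]

/-- **[IH-THETA]** `ι_q` is injective on the `θ`-part. -/
theorem ihara_theta (hp : p.Prime) (H : IharaTors N q) (hAP : NonEisAP p S θ) (hqS : q ∈ S)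
    {x y : JZero N} (hx : x ∈ thetaPart N p S θ) (hy : y ∈ thetaPart N p S θ)
    (h0 : pullA N q x + pullB N q y = 0) : x = 0 ∧ y = 0 := by
  obtain ⟨M₀, hM₀, H⟩ := H
  obtain ⟨l, hl1, hlS, hlne⟩ := hAP M₀ hM₀
  obtain ⟨l₁, hl₁1, hl₁S, hl₁ne⟩ := hAP (N * q) (Nat.mul_pos (NeZero.pos N) (NeZero.pos q))
  obtain ⟨n, hn⟩ := hx.1
  obtain ⟨n', hn'⟩ := hy.1
  have hxn : p ^ (n + n') • x = 0 := by rw [pow_add, mul_comm, mul_smul, hn, smul_zero]
  have hyn : p ^ (n + n') • y = 0 := by rw [pow_add, mul_smul, hn', smul_zero]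
  obtain ⟨h1, h2⟩ := H l l₁ hl1 (fun h => hlS (h ▸ hqS)) hl₁1 (p ^ (n + n'))
    (pow_pos hp.pos _) x y hxn hyn h0
  exact ⟨eq_zero_of_eis_eq_zero hp l₁ hl₁S hl₁ne hx
      (eq_zero_of_eis_eq_zero hp l hlS hlne (eis_mem_thetaPart l₁ hx) h1),
    eq_zero_of_eis_eq_zero hp l₁ hl₁S hl₁ne hy
      (eq_zero_of_eis_eq_zero hp l hlS hlne (eis_mem_thetaPart l₁ hy) h2)⟩

theorem pullA_mem_thetaPart (hS : ∀ r : ℕ, r.Prime → r ∉ S → ¬ r ∣ N * q * p)
    {x : JZero N} (hx : x ∈ thetaPart N p S θ) : pullA N q x ∈ thetaPart (N * q) p S θ :=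
  map_mem_thetaPart_of_equivariant (pullA N q) (pullA_smul N q)
    (fun r hr hrS => ⟨fun h => hS r hr hrS
      (h.trans (Nat.mul_dvd_mul_right (Dvd.intro _ rfl) p)), hS r hr hrS⟩) hx

theorem pullB_mem_thetaPart (hS : ∀ r : ℕ, r.Prime → r ∉ S → ¬ r ∣ N * q * p)
    {x : JZero N} (hx : x ∈ thetaPart N p S θ) : pullB N q x ∈ thetaPart (N * q) p S θ :=
  map_mem_thetaPart_of_equivariant (pullB N q) (pullB_smul N q)
    (fun r hr hrS => ⟨fun h => hS r hr hrS
      (h.trans (Nat.mul_dvd_mul_right (Dvd.intro _ rfl) p)), hS r hr hrS⟩) hx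

theorem pushA_mem_thetaPart (hS : ∀ r : ℕ, r.Prime → r ∉ S → ¬ r ∣ N * q * p)
    {y : JZero (N * q)} (hy : y ∈ thetaPart (N * q) p S θ) :
    SS.pushA N q y ∈ thetaPart N p S θ :=
  map_mem_thetaPart_of_equivariant (SS.pushA N q) (SS.pushA_smul N q)
    (fun r hr hrS => ⟨hS r hr hrS, fun h => hS r hr hrS
      (h.trans (Nat.mul_dvd_mul_right (Dvd.intro _ rfl) p))⟩) hy

theorem pushB_mem_thetaPart (hS : ∀ r : ℕ, r.Prime → r ∉ S → ¬ r ∣ N * q * p)
    {y : JZero (N * q)} (hy : y ∈ thetaPart (N * q) p S θ) :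
    SS.pushB N q y ∈ thetaPart N p S θ :=
  map_mem_thetaPart_of_equivariant (SS.pushB N q) (SS.pushB_smul N q)
    (fun r hr hrS => ⟨hS r hr hrS, fun h => hS r hr hrS
      (h.trans (Nat.mul_dvd_mul_right (Dvd.intro _ rfl) p))⟩) hy

/-- **[IH-DUAL]** `Π_q` is onto on the `p^k`-torsion of the `θ`-parts. -/
theorem ihara_dual (hp : p.Prime) (H : IharaTors N q) (hAP : NonEisAP p S θ) (hqS : q ∈ S)
    (hS : ∀ r : ℕ, r.Prime → r ∉ S → ¬ r ∣ N * q * p) (k : ℕ)
    {v w : JZero N} (hv : v ∈ thetaPart N p S θ) (hw : w ∈ thetaPart N p S θ)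
    (hpv : p ^ k • v = 0) (hpw : p ^ k • w = 0) :
    ∃ y ∈ thetaPart (N * q) p S θ, p ^ k • y = 0 ∧ SS.pushA N q y = v ∧ SS.pushB N q y = w := by
  obtain ⟨y, hy, hpy, hpush⟩ := WA.exists_push_eq_theta (θ := θ) (S := S) (N := N) (N' := N * q)
    (ι := Fin 2) hp k
    (fun r hr hrS => ⟨fun h => hS r hr hrS
      (h.trans (Nat.mul_dvd_mul_right (Dvd.intro _ rfl) p)), hS r hr hrS⟩)
    ![pullA N q, pullB N q] ![SS.pushA N q, SS.pushB N q]
    (fun i x y hx hy => by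
      fin_cases i
      · exact WA.weil_pullA N q hx hy
      · exact WA.weil_pullB N q hx hy)
    (fun i σ x => by
      fin_cases i
      · exact pullA_smul N q σ x
      · exact pullB_smul N q σ x)
    (fun u hu _ h0 => by
      rw [Fin.sum_univ_two] at h0
      obtain ⟨h1, h2⟩ := ihara_theta hp H hAP hqS (hu 0) (hu 1) h0
      intro i
      fin_cases i
      · exact h1
      · exact h2)
    ![v, w]
    (fun i => by
      fin_cases i
      · exact hv
      · exact hw)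
    (fun i => by
      fin_cases i
      · exact hpv
      · exact hpw)
  exact ⟨y, hy, hpy, hpush 0, hpush 1⟩

end Fermat.Agent.ML
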