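import Fermat.Agent.RIB.WeilJ

/-!
# ML / IHARA : definitions and contracts

`ι_q = (α^*, β^*) : J₀(N)² → J₀(N q)`, `Π_q = (α_*, β_*) : J₀(N q) → J₀(N)²`, `q ∤ N` prime.

* `eis N l = T_l - (l + 1)`, the Eisenstein operator on `J₀(N)`;
* `IharaTors N q` : **[IH-J0]**, the torsion of `ker ι_q` is Eisenstein, in the explicit form given
  by the soft Ihara lemma `S41.Soft.soft_ihara`;
* `NonEisAP p S θ` : the system of eigenvalues `θ` is not Eisenstein mod `p` on any arithmetic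
  progression `1 mod M₀`.
-/

set_option autoImplicit false
set_option linter.unusedSectionVars false

noncomputable section

open AlgebraicCurve ModularCurve

namespace Fermat.Agent.ML

open Fermat.Agent.RIB Fermat.Agent.GAL Fermat.Agent.GAL.PC

/-- the Eisenstein operator `T_l - (l + 1)` on `J₀(N)` -/
def eis (N : ℕ) [NeZero N] (l : Nat.Primes) : Module.End ℤ (JZero N) :=
  heckeOperatorBar N l - ((((l : ℕ) : ℤ) + 1 : ℤ) : Module.End ℤ (JZero N))

theorem eis_apply (N : ℕ) [NeZero N] (l : Nat.Primes) (x : JZero N) :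
    eis N l x = heckeOperatorBar N l x - (((l : ℕ) : ℤ) + 1) • x := by
  rw [eis, LinearMap.sub_apply, Module.End.intCast_apply]

/-- **[IH-J0]** the torsion of the kernel of `ι_q : J₀(N)² → J₀(N q)` is Eisenstein. -/
def IharaTors (N q : ℕ) [NeZero N] [NeZero q] : Prop :=
  ∃ M₀ : ℕ, 0 < M₀ ∧ ∀ l l₁ : Nat.Primes, (l : ℕ) ≡ 1 [MOD M₀] → (l : ℕ) ≠ q →
    (l₁ : ℕ) ≡ 1 [MOD N * q] → ∀ (m : ℕ), 0 < m → ∀ x y : JZero N, m • x = 0 → m • y = 0 →
      pullA N q x + pullB N q y = 0 →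
        eis N l (eis N l₁ x) = 0 ∧ eis N l (eis N l₁ y) = 0

/-- `θ` is not Eisenstein mod `p` on any arithmetic progression `1 mod M₀`. -/
def NonEisAP (p : ℕ) (S : Set ℕ) (θ : ℕ → ℤ) : Prop :=
  ∀ M₀ : ℕ, 0 < M₀ → ∃ l : Nat.Primes, (l : ℕ) ≡ 1 [MOD M₀] ∧ (l : ℕ) ∉ S ∧
    ¬ (p : ℤ) ∣ θ l - (((l : ℕ) : ℤ) + 1)

end Fermat.Agent.ML
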