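import Fermat.Agent.GAL.Sup.Main
import Fermat.Agent.GAL.HeckeEquiv.Kummer
import Fermat.Agent.RIB.Deg

/-!
# ML / Ihara / (I2) [IH-PULL] : Kummer classes and the two degeneracy maps `α^*`, `β^* : J₀(N) → J₀(N q)`

`x = [D]`, `m D = div u`, `θ u = h ^ m`, `h` of character `χ` under `Γ₀(N)`.   Then
* `α^* x = [α^* D]`, `m α^* D = div (α u)`, `θ (α u) = h ^ m`, `h` has the character `χ |_{Γ₀(N q)}`;
* `β^* x = [β^* D]`, `m β^* D = div (β u)`, `θ (β u) = (h ∘ δ) ^ m`, `δ = diag(q,1)`, `h ∘ δ` has the character `γ ↦ χ (δ γ δ⁻¹)`.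
-/

set_option autoImplicit false
set_option linter.unusedSectionVars false

open AlgebraicCurve ModularCurve CongruenceSubgroup ModularForm
open scoped MatrixGroups
open Matrix.SpecialLinearGroup (mapGL)

namespace Fermat.Agent.ML

open Fermat.Agent.GAL Fermat.Agent.GAL.HeckeEquiv Fermat.Agent.GAL.HeckeInputs Fermat.Agent.S24

noncomputable section

variable {N m : ℕ} [NeZero N] [NeZero m] (q : ℕ) [NeZero q]

/-- the divisor of `φ u` is `m` times the pull-back of `D`. -/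
theorem ord_map_eq_mul_pullback {K F F' : Type*} [Field K] [Field F] [Field F'] [Algebra K F]
    [Algebra K F'] [HasPrincipalDivisors K F'] (φ : F →ₐ[K] F') (hφ : φ.toRingHom.IsIntegral)
    (m : ℤ) (D : Divisor K F) (u : F) (hD : ∀ v : Place K F, v.ord u = m * D v)
    (w : Place K F') : w.ord (φ u) = m * Divisor.pullbackAlong φ hφ D w := by
  rw [Divisor.pullbackAlong_apply, Place.ord_restrictAlong φ hφ, hD]
  ring

/-- **[IH-PULL-A]** -/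
theorem isKummer_pullA {χ : Gamma0 N →* ℂˣ} {x : JZero N} (h : IsKummer N m χ x)
    (χ' : Gamma0 (N * q) →* ℂˣ)
    (hχ' : ∀ (γ : Gamma0 (N * q)) (γ' : Gamma0 N), (γ : SL(2, ℤ)) = γ' → χ' γ = χ γ') :
    IsKummer (N * q) m χ' (RIB.pullA N q x) := by
  obtain ⟨D, u, h, hu, hD, hθ, hχ, rfl⟩ := h
  refine ⟨RED.pullDegZero (heckeAlphaBar Kb N q) (heckeAlphaBarIntegral N q)
      (fundamentalIdentityAlong_alpha N q) D, heckeAlphaBar Kb N q u, h, ?_, ?_, ?_, ?_, rfl⟩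
  · simpa using hu
  · intro v
    exact ord_map_eq_mul_pullback _ (heckeAlphaBarIntegral N q) (m : ℤ) D u hD v
  · rw [ThetaMer_alpha, hθ]
  · intro g
    have hg : (g : SL(2, ℤ)) ∈ Gamma0 N := by
      have h1 := (S20.mem_Gamma0_iff_dvd (N * q) _).mp g.2
      exact (S20.mem_Gamma0_iff_dvd N _).mpr (Dvd.dvd.trans (by push_cast; exact Dvd.intro _ rfl) h1)
    rw [hχ' g ⟨g, hg⟩ rfl]
    exact hχ ⟨g, hg⟩

/-- `δ γ δ⁻¹ ∈ Γ₀(N)` for `γ ∈ Γ₀(N q)`, `δ = diag(q,1)`. -/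
theorem exists_conj_diag (g : Gamma0 (N * q)) : ∃ g' : Gamma0 N,
    heckeDiagMatrix q * mapGL ℝ (g : SL(2, ℤ)) = mapGL ℝ (g' : SL(2, ℤ)) * heckeDiagMatrix q := by
  obtain ⟨c₀, hc₀⟩ := (S20.mem_Gamma0_iff_dvd (N * q) _).mp g.2
  have hdet := Matrix.det_fin_two ((g : SL(2, ℤ)) : Matrix (Fin 2) (Fin 2) ℤ)
  rw [(g : SL(2, ℤ)).2] at hdet
  let g' : SL(2, ℤ) := ⟨!![(g : SL(2, ℤ)) 0 0, (q : ℤ) * (g : SL(2, ℤ)) 0 1; (N : ℤ) * c₀,
    (g : SL(2, ℤ)) 1 1], by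
      rw [Matrix.det_fin_two_of]
      rw [hc₀] at hdet
      push_cast at hdet
      linear_combination -hdet⟩
  refine ⟨⟨g', (S20.mem_Gamma0_iff_dvd N _).mpr ⟨c₀, rfl⟩⟩, ?_⟩
  apply Units.ext
  rw [Units.val_mul, Units.val_mul, val_heckeDiagMatrix (NeZero.ne q)]
  ext i j
  have hc₀' : (((g : SL(2, ℤ)) 1 0 : ℤ) : ℝ) = (N : ℝ) * q * c₀ := by
    rw [hc₀]; push_cast; ring
  fin_cases i <;> fin_cases j <;>
    simp [Matrix.mul_apply, Fin.sum_univ_two, g', hc₀'] <;> ring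

/-- **[IH-PULL-B]** -/
theorem isKummer_pullB {χ : Gamma0 N →* ℂˣ} {x : JZero N} (h : IsKummer N m χ x)
    (χ' : Gamma0 (N * q) →* ℂˣ)
    (hχ' : ∀ (γ : Gamma0 (N * q)) (γ' : Gamma0 N),
      heckeDiagMatrix q * mapGL ℝ (γ : SL(2, ℤ)) = mapGL ℝ (γ' : SL(2, ℤ)) * heckeDiagMatrix q →
        χ' γ = χ γ') :
    IsKummer (N * q) m χ' (RIB.pullB N q x) := by
  obtain ⟨D, u, h, hu, hD, hθ, hχ, rfl⟩ := h
  refine ⟨RED.pullDegZero (heckeBetaBar Kb N q) (heckeBetaBarIntegral N q)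
      (fundamentalIdentityAlong_beta N q) D, heckeBetaBar Kb N q u,
      merGL (heckeDiagMatrix q) (det_heckeDiagMatrix_pos q) h, ?_, ?_, ?_, ?_, rfl⟩
  · simpa using hu
  · intro v
    exact ord_map_eq_mul_pullback _ (heckeBetaBarIntegral N q) (m : ℤ) D u hD v
  · rw [ThetaMer_beta, hθ, map_pow]
  · intro g
    obtain ⟨d, hd⟩ := exists_conj_diag q (g⁻¹ : Gamma0 (N * q))
    have htr : χ' g⁻¹ = χ d := hχ' g⁻¹ d hd
    have e1 : actMer ((d : SL(2, ℤ)))⁻¹ h = algebraMap ℂ Mer (((χ d)⁻¹ : ℂˣ) : ℂ) * h := by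
      have := hχ d⁻¹
      rwa [map_inv] at this
    have hdx : heckeDiagMatrix q * mapGL ℝ (g : SL(2, ℤ))⁻¹ =
        mapGL ℝ (d : SL(2, ℤ)) * heckeDiagMatrix q := hd
    rw [actMer_eq_merGL, merGL_merGL, merGL_congr hdx,
      ← merGL_merGL _ _ (det_heckeDiagMatrix_pos q) (det_mapGL_pos (d : SL(2, ℤ))), merGL_mapGL, e1,
      map_mul, AlgHom.commutes, ← htr, map_inv, inv_inv]

end

end Fermat.Agent.ML
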