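import Fermat.Agent.S36.Top.SupBij
import Fermat.Agent.GAL.Sup.Main

/-!
# ML / Ihara / (I1) [IH-SURJ] : every `m`-torsion class of `J₀(N)` is a Kummer class of a good additive character

`GAL.exists_kummerHom` (injective, Hecke equivariant) + `S36.Top.exists_perChar_of_torsion` (onto, by counting).
-/

set_option autoImplicit false

open AlgebraicCurve ModularCurve CongruenceSubgroup

namespace Fermat.Agent.ML

open Fermat.Agent.GAL Fermat.Agent.GAL.PC

/-- **[IH-SURJ]** -/
theorem exists_goodHom_of_torsion (N m : ℕ) [NeZero N] [NeZero m] (x : JZero N) (hx : m • x = 0) :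
    ∃ c : GoodHom N m, IsKummer N m (chiOf (c : Additive (Gamma0 N) →+ ZMod m)) x := by
  obtain ⟨κ, hinj, hk, -⟩ := exists_kummerHom N m
  obtain ⟨ψ, hψ⟩ := S36.Top.exists_perChar_of_torsion (Nat.pos_of_ne_zero (NeZero.ne m)) κ hinj x hx
  exact ⟨_, hψ ▸ hk _⟩

/-- the Kummer homomorphism is a bijection `GoodHom N m ≃ J₀(N)[m]` (packaged form). -/
theorem exists_kummerHom_surj (N m : ℕ) [NeZero N] [NeZero m] :
    ∃ κ : GoodHom N m →+ JZero N, Function.Injective κ ∧
      (∀ c : GoodHom N m, IsKummer N m (chiOf (c : Additive (Gamma0 N) →+ ZMod m)) (κ c)) ∧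
      (∀ x : JZero N, m • x = 0 → ∃ c, κ c = x) ∧ (∀ c, m • κ c = 0) := by
  obtain ⟨κ, hinj, hk, -⟩ := exists_kummerHom N m
  refine ⟨κ, hinj, hk, fun x hx => ?_, fun c => ?_⟩
  · obtain ⟨ψ, hψ⟩ :=
      S36.Top.exists_perChar_of_torsion (Nat.pos_of_ne_zero (NeZero.ne m)) κ hinj x hx
    exact ⟨_, hψ⟩
  · rw [← map_nsmul]
    have : m • c = 0 := by
      apply Subtype.ext
      refine AddMonoidHom.ext fun γ => ?_
      show m • (c : Additive (Gamma0 N) →+ ZMod m) γ = 0
      rw [nsmul_eq_mul, ZMod.natCast_self, zero_mul]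
    rw [this, map_zero]

/-- the zero class is the Kummer class of the trivial character. -/
theorem isKummer_one_zero (N m : ℕ) [NeZero N] [NeZero m] : IsKummer N m 1 (0 : JZero N) := by
  obtain ⟨κ, -, hk, -⟩ := exists_kummerHom N m
  have h := hk 0
  rwa [map_zero, AddSubgroup.coe_zero, chiOf_zero] at h

end Fermat.Agent.ML
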