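import Fermat.Agent.ML.Ihara.Spec
import Fermat.Agent.ML.Ihara.Surj
import Fermat.Agent.ML.Ihara.PullB
import Fermat.Agent.S41.IharaH
import Fermat.Agent.S41.HeckeRel

/-!
# ML / Ihara / (I3) + (I4) : **[IH-J0]** the torsion of the kernel of `ι_q : J₀(N)² → J₀(N q)` is Eisenstein

`x = κ(c₁)`, `y = κ(c₂)` (`[IH-SURJ]`), `c_i = bd u_i` (`S41.mem_H_of_isParabolicHom`); `α^* x + β^* y = 0` means (`[IH-PULL]`,
`IsKummer.eq_one_of_zero`) that `u₁ + u₂ ∘ diag(q,1)` is `Γ₀(N q)`-invariant; `S41.Soft.soft_ihara`; back with `IsKummer.hecke`.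
-/

set_option autoImplicit false
set_option linter.unusedSectionVars false

open AlgebraicCurve ModularCurve CongruenceSubgroup ModularForm ModularCurve.Period
open scoped MatrixGroups
open Matrix.SpecialLinearGroup (mapGL)

namespace Fermat.Agent.ML

open Fermat.Agent.GAL Fermat.Agent.S41

noncomputable section

variable {N m : ℕ} [NeZero N] [NeZero m]

/-- integral transfer relation ⟹ real transfer relation -/
theorem isTransfer_of_isHeckeT {l : ℕ} [NeZero l] {c c' : Additive (Gamma0 N) →+ ZMod m}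
    (h : EP.IsHeckeT N l c c') : IsTransfer l c c' := by
  intro γ σ d hd
  exact h γ σ d fun x => (EP.matT_mul_iff l x (σ x) _ _).2 (hd x)

theorem isParabolicHom_of_good (c : GoodHom N m) :
    IsParabolicHom (Gamma0 N) (c : Additive (Gamma0 N) →+ ZMod m) := by
  intro γ hγ
  apply c.2
  rw [Matrix.trace_fin_two] at hγ
  show |((γ : SL(2, ℤ)) 0 0 + (γ : SL(2, ℤ)) 1 1 : ℤ)| ≤ 2
  exact abs_le.2 ⟨by nlinarith, by nlinarith⟩

/-- the relation "`x` is the Kummer class of the additive character `c`". -/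
def KumRel (N m : ℕ) [NeZero m] (c : Additive (Gamma0 N) →+ ZMod m) (x : JZero N) : Prop :=
  IsKummer N m (chiOf c) x

theorem KumRel.zero : KumRel N m 0 0 := by
  rw [KumRel, chiOf_zero]
  exact isKummer_one_zero N m

theorem KumRel.add {c c' : Additive (Gamma0 N) →+ ZMod m} {x x' : JZero N} (h : KumRel N m c x)
    (h' : KumRel N m c' x') : KumRel N m (c + c') (x + x') := by
  rw [KumRel, chiOf_add]
  exact IsKummer.mul h h'

theorem KumRel.nsmul {c : Additive (Gamma0 N) →+ ZMod m} {x : JZero N} (h : KumRel N m c x)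
    (n : ℕ) : KumRel N m (n • c) (n • x) := by
  induction n with
  | zero => rw [zero_nsmul, zero_nsmul]; exact KumRel.zero
  | succ n ih => rw [succ_nsmul, succ_nsmul]; exact ih.add h

theorem nsmul_hom_eq_zero (c : Additive (Gamma0 N) →+ ZMod m) : m • c = 0 := by
  refine AddMonoidHom.ext fun γ => ?_
  show m • c γ = 0
  rw [nsmul_eq_mul, ZMod.natCast_self, zero_mul]

theorem KumRel.neg {c : Additive (Gamma0 N) →+ ZMod m} {x : JZero N} (h : KumRel N m c x)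
    (hx : m • x = 0) : KumRel N m (-c) (-x) := by
  have h1 := h.nsmul (m - 1)
  have hm : m - 1 + 1 = m := Nat.sub_add_cancel (Nat.pos_of_ne_zero (NeZero.ne m))
  have e1 : (m - 1) • c = -c := by
    rw [eq_neg_iff_add_eq_zero, ← succ_nsmul, hm]
    exact nsmul_hom_eq_zero c
  have e2 : (m - 1) • x = -x := by
    rw [eq_neg_iff_add_eq_zero, ← succ_nsmul, hm]
    exact hx
  rwa [e1, e2] at h1

theorem KumRel.eq_zero {x : JZero N} (h : KumRel N m 0 x) : x = 0 :=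
  IsKummer.unique h KumRel.zero

theorem KumRel.hom_eq_zero {c : Additive (Gamma0 N) →+ ZMod m} (h : KumRel N m c 0) : c = 0 := by
  have h1 := IsKummer.eq_one_of_zero h
  rw [← chiOf_zero (m := m)] at h1
  exact chiOf_injective h1

/-- `T_l - (l+1)` on `HH`. -/
def eisH (N m : ℕ) (l : ℕ) (a : HH (ZMod m) N) : HH (ZMod m) N :=
  TH (ZMod m) N l a - ((l : ℤ) + 1) • a

theorem KumRel.eis' {l : Nat.Primes} (hlN : ¬ (l : ℕ) ∣ N) {a : HH (ZMod m) N} {x : JZero N}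
    (h : KumRel N m (a : Additive (Gamma0 N) →+ ZMod m) x) (hx : m • x = 0) :
    KumRel N m (eisH N m l a : Additive (Gamma0 N) →+ ZMod m) (eis N l x) := by
  have : NeZero (l : ℕ) := ⟨l.2.ne_zero⟩
  have h1 : KumRel N m (TH (ZMod m) N l a : Additive (Gamma0 N) →+ ZMod m)
      (heckeOperatorBar N l x) :=
    IsKummer.hecke l hlN h (isTransfer_of_isHeckeT (isHeckeT_TH l.2 hlN a)).chiOf
  have h2 := (h.nsmul ((l : ℕ) + 1)).neg (by rw [smul_comm, hx, smul_zero])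
  have h3 := h1.add h2
  have e1 : (eisH N m l a : Additive (Gamma0 N) →+ ZMod m) =
      (TH (ZMod m) N l a : Additive (Gamma0 N) →+ ZMod m) +
        -(((l : ℕ) + 1) • (a : Additive (Gamma0 N) →+ ZMod m)) := by
    rw [eisH, Submodule.coe_sub, Submodule.coe_smul, sub_eq_add_neg]
    congr 2
    have : ((l : ℕ) : ℤ) + 1 = (((l : ℕ) + 1 : ℕ) : ℤ) := by push_cast; ring
    rw [this, natCast_zsmul]
  have e2 : eis N l x = heckeOperatorBar N l x + -(((l : ℕ) + 1) • x) := by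
    have : ((l : ℕ) : ℤ) + 1 = (((l : ℕ) + 1 : ℕ) : ℤ) := by push_cast; ring
    rw [eis_apply, sub_eq_add_neg, this, natCast_zsmul]
  rw [e1, e2]
  exact h3

theorem nsmul_eis_eq_zero (l : Nat.Primes) {x : JZero N} (hx : m • x = 0) :
    m • eis N l x = 0 := by
  rw [← map_nsmul, hx, map_zero]

/-- `(T_l - l - 1)` on `HH` in terms of `DD` (general coefficients). -/
theorem eisH_bd {l : ℕ} (hl : l.Prime) (hlN : ¬ l ∣ N) (u : Symb (Gamma0 N) (ZMod m)) :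
    ∃ hu' : Soft.DD l u.1 ∈ Symb (Gamma0 N) (ZMod m),
      eisH N m l (bd (Gamma0 N) (ZMod m) u) = bd (Gamma0 N) (ZMod m) ⟨Soft.DD l u.1, hu'⟩ := by
  have hop := isOp_T (A := ZMod m) hl hlN
  have hmem : Soft.DD l u.1 ∈ Symb (Gamma0 N) (ZMod m) := by
    rw [← opT_sub_eq_DD]
    exact (Symb (Gamma0 N) (ZMod m)).sub_mem (hop.symb u.1 u.2)
      ((Symb (Gamma0 N) (ZMod m)).smul_mem _ u.2)
  refine ⟨hmem, ?_⟩
  rw [eisH, TH, opH_bd hop, ← _root_.map_smul, ← map_sub]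
  congr 1
  apply Subtype.ext
  exact opT_sub_eq_DD l u.1

/-- **[IH-J0]** -/
theorem iharaTors {q : ℕ} [NeZero q] (hq : q.Prime) (hqN : ¬ q ∣ N) : IharaTors N q := by
  obtain ⟨M₀, hM₀, hsoft⟩ := Soft.soft_ihara.{0} (Nat.pos_of_ne_zero (NeZero.ne N)) hq hqN
  refine ⟨M₀ * N, Nat.mul_pos hM₀ (Nat.pos_of_ne_zero (NeZero.ne N)), ?_⟩
  intro l l₁ hlM hlq hl₁M m hm x y hx hy hxy
  have : NeZero m := ⟨hm.ne'⟩
  have hlN : ¬ (l : ℕ) ∣ N := not_dvd_of_modEq_one l.2 hlM (Dvd.intro_left _ rfl)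
  have hl₁N : ¬ (l₁ : ℕ) ∣ N := not_dvd_of_modEq_one l₁.2 hl₁M (Dvd.intro _ rfl)
  obtain ⟨c₁, hc₁⟩ := exists_goodHom_of_torsion N m x hx
  obtain ⟨c₂, hc₂⟩ := exists_goodHom_of_torsion N m y hy
  obtain ⟨u₁, hu₁⟩ := bd_surjective (⟨c₁, mem_H_of_isParabolicHom (isParabolicHom_of_good c₁)⟩ :
    H (Gamma0 N) (ZMod m))
  obtain ⟨u₂, hu₂⟩ := bd_surjective (⟨c₂, mem_H_of_isParabolicHom (isParabolicHom_of_good c₂)⟩ :
    H (Gamma0 N) (ZMod m))
  have hk₁ : KumRel N m (bd (Gamma0 N) (ZMod m) u₁ : Additive (Gamma0 N) →+ ZMod m) x := by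
    rw [hu₁]; exact hc₁
  have hk₂ : KumRel N m (bd (Gamma0 N) (ZMod m) u₂ : Additive (Gamma0 N) →+ ZMod m) y := by
    rw [hu₂]; exact hc₂
  -- the characters at level `N q`
  have hres := isOp_res (A := ZMod m) (Gamma0_mul_le N q)
  have hB := isOp_B (A := ZMod m) hq hqN
  set v₁ : Symb (Gamma0 (N * q)) (ZMod m) := ⟨LinearMap.id u₁.1, hres.symb u₁.1 u₁.2⟩ with hv₁
  set v₂ : Symb (Gamma0 (N * q)) (ZMod m) := ⟨opB (ZMod m) q u₂.1, hB.symb u₂.1 u₂.2⟩ with hv₂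
  have hA : KumRel (N * q) m (bd (Gamma0 (N * q)) (ZMod m) v₁ : Additive (Gamma0 (N * q)) →+ ZMod m)
      (RIB.pullA N q x) := by
    refine isKummer_pullA q hk₁ _ fun γ γ' hγ => ?_
    apply Units.ext
    rw [coe_chiOf, coe_chiOf, bd_apply v₁ γ OnePoint.infty, bd_apply u₁ γ' OnePoint.infty, hγ]
    rfl
  have hBk : KumRel (N * q) m
      (bd (Gamma0 (N * q)) (ZMod m) v₂ : Additive (Gamma0 (N * q)) →+ ZMod m)
      (RIB.pullB N q y) := by
    refine isKummer_pullB q hk₂ _ fun γ γ' hγ => ?_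
    have hγQ : Soft.dgQ q * mapGL ℚ (γ : SL(2, ℤ)) = mapGL ℚ (γ' : SL(2, ℤ)) * Soft.dgQ q := by
      apply Soft.castGL_injective
      rw [map_mul, map_mul, Soft.castGL_dgQ, Soft.castGL_mapGL, Soft.castGL_mapGL, hγ]
    apply Units.ext
    rw [coe_chiOf, coe_chiOf, bd_apply v₂ γ OnePoint.infty,
      bd_apply u₂ γ' (Soft.dgQ q • OnePoint.infty)]
    show ZMod.stdAddChar (opB (ZMod m) q u₂.1 _ - opB (ZMod m) q u₂.1 _) = _
    rw [opB_apply, opB_apply, ← mul_smul, hγQ, mul_smul]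
  have hsum := (hA.add hBk)
  rw [hxy] at hsum
  have hzero := hsum.hom_eq_zero
  have hinv : Soft.IsInv (Gamma0 (N * q)) (fun s => u₁.1 s + u₂.1 (Soft.dgQ q • s)) := by
    intro γ hγ s
    have h1 := bd_apply v₁ ⟨γ, hγ⟩ s
    have h2 := bd_apply v₂ ⟨γ, hγ⟩ s
    have h3 := DFunLike.congr_fun hzero (Additive.ofMul (⟨γ, hγ⟩ : Gamma0 (N * q)))
    rw [AddMonoidHom.add_apply, h1, h2] at h3
    have h4 : (u₁.1 (mapGL ℚ γ • s) - u₁.1 s) +
        (u₂.1 (Soft.dgQ q • (mapGL ℚ γ • s)) - u₂.1 (Soft.dgQ q • s)) = 0 := by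
      rw [← opB_apply q u₂.1, ← opB_apply q u₂.1]
      exact h3
    show u₁.1 (mapGL ℚ γ • s) + u₂.1 (Soft.dgQ q • (mapGL ℚ γ • s)) =
      u₁.1 s + u₂.1 (Soft.dgQ q • s)
    linear_combination h4
  obtain ⟨r1, r2⟩ := hsoft l l₁ l.2 l₁.2 (hlM.of_dvd (Dvd.intro _ rfl)) hlq hl₁M (ZMod m) _ _
    (mem_Symb_iff_soft.1 u₁.2) (mem_Symb_iff_soft.1 u₂.2) hinv
  have key : ∀ (u : Symb (Gamma0 N) (ZMod m)) (z : JZero N), m • z = 0 →
      KumRel N m (bd (Gamma0 N) (ZMod m) u : Additive (Gamma0 N) →+ ZMod m) z →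
      Soft.IsInv (Gamma0 N) (Soft.DD l (Soft.DD l₁ u.1)) → eis N l (eis N l₁ z) = 0 := by
    intro u z hz hk hr
    have h1 := (hk.eis' hl₁N hz).eis' hlN (nsmul_eis_eq_zero l₁ hz)
    obtain ⟨hu', e1⟩ := eisH_bd l₁.2 hl₁N u
    rw [e1] at h1
    obtain ⟨hu'', e2⟩ := eisH_bd l.2 hlN ⟨Soft.DD l₁ u.1, hu'⟩
    have e3 : bd (Gamma0 N) (ZMod m) ⟨Soft.DD l (Soft.DD l₁ u.1), hu''⟩ = 0 :=
      (bd_eq_zero_iff _).2 (mem_Inv_iff_soft.2 hr)
    rw [e2, e3] at h1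
    exact KumRel.eq_zero h1
  exact ⟨key u₁ x hx hk₁ r1, key u₂ y hy hk₂ r2⟩

end

end Fermat.Agent.ML
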