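import Fermat.Agent.ML.Ihara.Comm

/-!
# ML / IHARA : `[COMM]` for an ARBITRARY level `N`

`ML/Ihara/Comm.lean` proves the base change `b^* a_* = a'_* b'^*` for the degeneracy maps at two primes `l ≠ q`
over a level `N` with `q ∤ N`.  The squares between two Taylor-Wiles primes (both SECOND steps: `N = L l q`) have
`l ∣ N` and `q ∣ N`.  Here: no hypothesis on `N`.  Same proof, the Atkin-Lehner involution being `W_Q` for `Q` the full
`q`-part of `T = N l q`.

* `gen_square_gen` : the four squares are cartesian;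
* `baseChange_gen` : `jPull b (jPush a y) = jPush a' (jPull b' y)`.
-/

set_option autoImplicit false
set_option linter.unusedSectionVars false
set_option linter.style.haveILetI false

noncomputable section

open AlgebraicCurve ModularCurve

namespace Fermat.Agent.ML

open Fermat.Agent.S24 Fermat.Agent.RIB Fermat.Agent.GAL Fermat.Agent.GAL.PC
  Fermat.Agent.GAL.HeckeComm Fermat.Agent.GAL.FFBC Fermat.Agent.GAL.FFExt
  Fermat.Agent.GAL.HeckeInputs

variable {N l q : ℕ} [NeZero N] [NeZero l] [NeZero q]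

/-- the four squares `(α_l | β_l) × (α_q | β_q)` over an ARBITRARY level `N` are cartesian. -/
theorem gen_square_gen (hl : l.Prime) (hq : q.Prime) (hne : q ≠ l) {T : ℕ} [NeZero T]
    (hT : T = N * l * q) {ca cb : ℕ} [NeZero ca] [NeZero cb] (hca : ca = 1 ∨ ca = l)
    (hcb : cb = 1 ∨ cb = q) {a' : FN (N * q) →ₐ[Kb] FN T} {b' : FN (N * l) →ₐ[Kb] FN T}
    (ha' : IsDg ca a') (hb' : IsDg cb b') (S : Subfield (FN T)) (h1 : ∀ z, a' z ∈ S)
    (h2 : ∀ y, b' y ∈ S) : S = ⊤ := by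
  have hK : ∀ c : Kb, algebraMap Kb (FN T) c ∈ S := fun c => by
    rw [← a'.commutes c]; exact h1 _
  obtain ⟨e, N₀, hN₀, hN⟩ := Nat.exists_eq_pow_mul_and_not_dvd (NeZero.ne N) q hq.ne_one
  haveI : NeZero N₀ := ⟨by rintro rfl; exact hN₀ (dvd_zero _)⟩
  haveI : NeZero (q ^ e) := ⟨pow_ne_zero _ hq.ne_zero⟩
  haveI : NeZero (q ^ (e + 1)) := ⟨pow_ne_zero _ hq.ne_zero⟩
  haveI : NeZero (N₀ * l) := ⟨mul_ne_zero (NeZero.ne _) (NeZero.ne _)⟩
  have hT' : T = N₀ * l * q ^ (e + 1) := by rw [hT, hN, pow_succ]; ring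
  have hcop : Nat.Coprime (q ^ (e + 1)) (N₀ * l) :=
    Nat.Coprime.pow_left _ (Nat.Coprime.mul_right ((Nat.Prime.coprime_iff_not_dvd hq).mpr hN₀)
      ((Nat.coprime_primes hq hl).mpr hne))
  have hQT : q ^ (e + 1) ∣ T := hT' ▸ Dvd.intro_left _ rfl
  have hNT : N₀ * l ∣ T := hT' ▸ Dvd.intro _ rfl
  rcases hca with hca | hca <;> rcases hcb with hcb | hcb
  · have ha := ha'.congr hca
    have hb := hb'.congr hcb
    refine subfield_eq_top_of_W T (N₀ * l) (q ^ (e + 1)) hT' hcop S hK hQT hNT ?_ ?_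
    · rw [← ha.map_jBar (q ^ (e + 1)) (q ^ (e + 1)) ⟨N₀, by rw [hN, pow_succ]; ring⟩ hQT
        (one_mul _).symm]
      exact h1 _
    · rw [← hb.map_jBar (N₀ * l) (N₀ * l) ⟨q ^ e, by rw [hN]; ring⟩ hNT (one_mul _).symm]
      exact h2 _
  · have ha := ha'.congr hca
    have hb := hb'.congr hcb
    refine subfield_eq_top T S hK ?_ ?_
    · rw [jF, ← ha.map_jBar 1 1 (one_dvd _) (one_dvd _) (one_mul _).symm]; exact h1 _
    · rw [← hb.map_jBar (N * l) T dvd_rfl dvd_rfl (by rw [hT, mul_comm])]; exact h2 _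
  · have ha := ha'.congr hca
    have hb := hb'.congr hcb
    refine subfield_eq_top T S hK ?_ ?_
    · rw [jF, ← hb.map_jBar 1 1 (one_dvd _) (one_dvd _) (one_mul _).symm]; exact h2 _
    · rw [← ha.map_jBar (N * q) T dvd_rfl dvd_rfl (by rw [hT]; ring)]; exact h1 _
  · have ha := ha'.congr hca
    have hb := hb'.congr hcb
    refine subfield_eq_top_of_W T (N₀ * l) (q ^ (e + 1)) hT' hcop S hK hQT hNT ?_ ?_
    · rw [← hb.map_jBar (q ^ e) (q ^ (e + 1)) ⟨N₀ * l, by rw [hN]; ring⟩ hQT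
        (by rw [pow_succ, mul_comm])]
      exact h2 _
    · rw [← ha.map_jBar N₀ (N₀ * l) ⟨q ^ (e + 1), by rw [hN, pow_succ]; ring⟩ hNT (mul_comm _ _)]
      exact h1 _

/-- **[COMM] base change over an ARBITRARY level `N`** : `b^* a_* = a'_* b'^*`, `a, a'` degeneracy maps at `l`
(levels `N`, `N q`), `b, b'` degeneracy maps at `q` (levels `N`, `N l`); `l ∣ N` and `q ∣ N` are allowed. -/
theorem baseChange_gen (hl : l.Prime) (hq : q.Prime) (hne : q ≠ l) {T : ℕ}
    [NeZero T] (hT : T = N * l * q) {ca cb : ℕ} [NeZero ca] [NeZero cb] (hca : ca = 1 ∨ ca = l)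
    (hcb : cb = 1 ∨ cb = q) {a : FN N →ₐ[Kb] FN (N * l)} {b : FN N →ₐ[Kb] FN (N * q)}
    {a' : FN (N * q) →ₐ[Kb] FN T} {b' : FN (N * l) →ₐ[Kb] FN T} (ha : IsDg ca a)
    (ha' : IsDg ca a') (hb : IsDg cb b) (hb' : IsDg cb b') (y : JZero (N * l)) :
    jPull b (jPush a y) = jPush a' (jPull b' y) := by
  refine jPull_jPush_of_square a b a' b' ((hb.comp ha').ext (ha.comp hb') (mul_comm _ _))
    (gen_square_gen hl hq hne hT hca hcb ha' hb') ?_ y
  rw [finrank_dg hl hca rfl ha, finrank_dg (N := N * q) hl hca (by rw [hT]; ring) ha',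
    finrankAlong_alpha_eq N q l hq hl hne]

end Fermat.Agent.ML
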