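import Fermat.Agent.ML.Ihara.Spec
import Fermat.Agent.RIB.Deg.Fun
import Fermat.Agent.S36.Kum.Level

/-!
# ML / IHARA : `[IH-A2]`  `Π_q ∘ ι_q = [[q+1, T_q], [T_q, q+1]]`
-/

set_option autoImplicit false
set_option linter.unusedSectionVars false

noncomputable section

open AlgebraicCurve ModularCurve

namespace Fermat.Agent.ML

open Fermat.Agent.S24 Fermat.Agent.RIB Fermat.Agent.GAL Fermat.Agent.GAL.PC Fermat.Agent.GAL.HeckeComm

variable (N q : ℕ) [NeZero N] [NeZero q]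

theorem pullA_eq_jPull : pullA N q = jPull (heckeAlphaBar Kb N q) := rfl

theorem pullB_eq_jPull : pullB N q = jPull (heckeBetaBar Kb N q) := rfl

/-- `α_* α^* = q + 1`. -/
theorem pushA_pullA (hq : q.Prime) (hqN : ¬ q ∣ N) (x : JZero N) :
    SS.pushA N q (pullA N q x) = (q + 1) • x := by
  rw [pushA_eq_jPush, pullA_eq_jPull, jPush_jPull, finrankAlong_alpha_of_not_dvd N q hq hqN]

/-- `β_* β^* = q + 1`. -/
theorem pushB_pullB (hq : q.Prime) (hqN : ¬ q ∣ N) (x : JZero N) :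
    SS.pushB N q (pullB N q x) = (q + 1) • x := by
  rw [pushB_eq_jPush, pullB_eq_jPull, jPush_jPull, S36.Kum.finrankAlong_beta_eq_alpha' N q hq,
    finrankAlong_alpha_of_not_dvd N q hq hqN]

/-- `α_* β^* = T_q`. -/
theorem pushA_pullB (hq : q.Prime) (x : JZero N) :
    SS.pushA N q (pullB N q x) = heckeOperatorBar N ⟨q, hq⟩ x :=
  (hecke_eq_jPush_jPull N q hq x).symm

/-- `β_* α^* = T_q` on `p`-power torsion (`q ∤ N p`). -/
theorem pushB_pullA (hq : q.Prime) {p : ℕ} (hp : p.Prime) (hqNp : ¬ q ∣ N * p) (k : ℕ)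
    {x : JZero N} (hx : p ^ k • x = 0) :
    SS.pushB N q (pullA N q x) = heckeOperatorBar N ⟨q, hq⟩ x :=
  WA.pushB_pullA_eq_hecke N hp k ⟨q, hq⟩ hqNp hx

end Fermat.Agent.ML
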