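import Fermat.Agent.ML.Ihara.A2
import Fermat.Agent.S36.Mod.AL2
import Fermat.Agent.HK.GammaNorm

/-!
# ML / IHARA : `[COMM]`  degeneracy maps at two coprime primes commute

`IsDg c φ` : the field map `φ : F_M → F_{M'}` is `f(τ) ↦ f(c τ)` (on `q`-expansions).

* `IsDg.ext`, `IsDg.comp` : such maps are determined by `c`; hence pull-pull and push-push
  commutations (`jPull_comp`, `jPush_comp`);
* `jPull_jPush_of_square` : base change `b^* a_* = a'_* b'^*` in a cartesian square;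
* `gen_square` : the four squares `(α_l | β_l) × (α_q | β_q)` are cartesian (`q ∤ N l`);
  the squares `(α, α)` and `(β, β)` are reduced to the obvious ones by the Atkin–Lehner
  involution `W_q`;
* `baseChange_lq` : the resulting commutation `b^* a_* = a'_* b'^*`.
-/

set_option autoImplicit false
set_option linter.unusedSectionVars false
set_option linter.style.haveILetI false

noncomputable section

open AlgebraicCurve ModularCurve

namespace Fermat.Agent.ML

open Fermat.Agent.S24 Fermat.Agent.RIB Fermat.Agent.GAL Fermat.Agent.GAL.PC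
  Fermat.Agent.GAL.HeckeComm Fermat.Agent.GAL.FFBC Fermat.Agent.GAL.FFExt
  Fermat.Agent.GAL.HeckeInputs

/-- `φ` is `f(τ) ↦ f(c τ)`. -/
def IsDg {M M' : ℕ} (c : ℕ) [NeZero c] (φ : FN M →ₐ[Kb] FN M') : Prop :=
  ∀ x : FN M, ((φ x : FN M') : LaurentSeries Kb) = qExpand Kb c (x : LaurentSeries Kb)

theorem isDg_alpha (N l : ℕ) [NeZero N] [NeZero l] : IsDg 1 (heckeAlphaBar Kb N l) := fun x => by
  rw [coe_heckeAlphaBar, qExpand_one_apply]

theorem isDg_beta (N l : ℕ) [NeZero N] [NeZero l] : IsDg l (heckeBetaBar Kb N l) := fun x => by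
  rw [coe_heckeBetaBar]

theorem isDg_castLevel {M M' : ℕ} (h : M = M') : IsDg 1 (castLevel h) := fun x => by
  rw [coe_castLevel, qExpand_one_apply]

theorem IsDg.congr {M M' c c' : ℕ} [NeZero c] [NeZero c'] {φ : FN M →ₐ[Kb] FN M'}
    (h : IsDg c φ) (hc : c = c') : IsDg c' φ := by
  subst hc; exact h

theorem IsDg.comp {M M' M'' c c' : ℕ} [NeZero c] [NeZero c'] {φ : FN M →ₐ[Kb] FN M'}
    {ψ : FN M' →ₐ[Kb] FN M''} (hφ : IsDg c φ) (hψ : IsDg c' ψ) : IsDg (c' * c) (ψ.comp φ) :=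
  fun x => by rw [AlgHom.comp_apply, hψ, hφ, qExpand_qExpand]

theorem IsDg.ext {M M' c c' : ℕ} [NeZero c] [NeZero c'] {φ ψ : FN M →ₐ[Kb] FN M'}
    (hφ : IsDg c φ) (hψ : IsDg c' ψ) (hc : c = c') : φ = ψ := by
  subst hc
  exact AlgHom.ext fun x => Subtype.ext ((hφ x).trans (hψ x).symm)

theorem jBar_congr' {T d d' : ℕ} [NeZero d] [NeZero d'] (h : d = d') (hd : d ∣ T) (hd' : d' ∣ T) :
    jBar T d hd = jBar T d' hd' := by
  subst h; rfl

theorem IsDg.map_jBar {M M' c : ℕ} [NeZero c] {φ : FN M →ₐ[Kb] FN M'} (hφ : IsDg c φ)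
    (d e : ℕ) [NeZero d] [NeZero e] (hd : d ∣ M) (he : e ∣ M') (hce : e = c * d) :
    φ (jBar M d hd) = jBar M' e he := by
  subst hce
  apply Subtype.ext
  rw [hφ, coe_jBar, coe_jBar, jqNModC, jqNModC, qExpand_qExpand]

section Square

variable {X Y Z W : ℕ} [NeZero X] [NeZero Y] [NeZero Z] [NeZero W]

/-- **base change** `b^* a_* = a'_* b'^*` on `J₀`. -/
theorem jPull_jPush_of_square (a : FN X →ₐ[Kb] FN Y) (b : FN X →ₐ[Kb] FN Z)
    (a' : FN Z →ₐ[Kb] FN W) (b' : FN Y →ₐ[Kb] FN W) (hcomm : a'.comp b = b'.comp a)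
    (hgen : ∀ S : Subfield (FN W), (∀ z : FN Z, a' z ∈ S) → (∀ y : FN Y, b' y ∈ S) → S = ⊤)
    (hdeg : finrankAlong Kb a' = finrankAlong Kb a) (y : JZero Y) :
    jPull b (jPush a y) = jPush a' (jPull b' y) := by
  obtain ⟨D, rfl⟩ := Pic0.mk_surjective y
  rw [jPush_mk, jPull_mk, jPull_mk, jPush_mk]
  refine congrArg Pic0.mk (Subtype.ext ?_)
  rw [RED.coe_pullDegZero, SS.coe_pushDegZero, SS.coe_pushDegZero, RED.coe_pullDegZero]
  exact pullbackAlong_pushforwardAlong a b a' b' hcomm _ _ _ _ (finiteAlong_any _)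
    (finiteAlong_any _) (finiteAlong_any _) (finiteAlong_any _) (isFiniteParam_jF X) hgen hdeg _

end Square

section Gen

theorem subfield_eq_top_of_invol (T : ℕ) [NeZero T] (S : Subfield (FN T)) (w : FN T →+* FN T)
    (hw : ∀ x, w (w x) = x) (hK : ∀ a : Kb, w (algebraMap Kb (FN T) a) ∈ S)
    (h1 : w (jF T) ∈ S) (h2 : w (jBar T T dvd_rfl) ∈ S) : S = ⊤ := by
  have htop : S.comap w = ⊤ :=
    subfield_eq_top T (S.comap w) (fun a => Subfield.mem_comap.mpr (hK a))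
      (Subfield.mem_comap.mpr h1) (Subfield.mem_comap.mpr h2)
  rw [eq_top_iff]
  intro x _
  have hx : w x ∈ S.comap w := by rw [htop]; exact Subfield.mem_top _
  have hx' := Subfield.mem_comap.mp hx
  rwa [hw] at hx'

/-- `F_T = ℚ̄(j(q τ), j(N' τ))` for `T = N' q`, `(q, N') = 1` (apply `W_q` to `F_T = ℚ̄(j, j_T)`). -/
theorem subfield_eq_top_of_W (T N' q : ℕ) [NeZero T] [NeZero N'] [NeZero q] (hT : T = N' * q)
    (hcop : Nat.Coprime q N') (S : Subfield (FN T))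
    (hK : ∀ a : Kb, algebraMap Kb (FN T) a ∈ S) (hqT : q ∣ T) (hNT : N' ∣ T)
    (h1 : jBar T q hqT ∈ S) (h2 : jBar T N' hNT ∈ S) : S = ⊤ := by
  obtain ⟨u, v, huv⟩ := Nat.isCoprime_iff_coprime.mpr hcop
  have h : (q : ℤ) * u - N' * (-v) = 1 := by linear_combination huv
  refine subfield_eq_top_of_invol T S (S36.alW T N' q hT u (-v) h)
    (S36.alW_alW T N' q hT u (-v) h) (fun a => ?_) ?_ ?_
  · rw [S36.alW_algebraMap]
    exact hK a
  · rw [jF, S36.alW_jBar' T N' q hT u (-v) h 1 1 q 1 q (one_dvd _) (one_mul _) (one_mul _).symm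
      (mul_one _).symm (one_dvd _) hqT]
    exact h1
  · rw [S36.alW_jBar' T N' q hT u (-v) h N' q 1 T N' dvd_rfl (mul_one _)
      (by rw [hT, mul_comm]) (one_mul _).symm dvd_rfl hNT]
    exact h2

variable {N l q : ℕ} [NeZero N] [NeZero l] [NeZero q]

/-- the four squares `(α_l | β_l) × (α_q | β_q)` are cartesian. -/
theorem gen_square {T : ℕ} [NeZero T] (hT : T = N * l * q) (hcop : Nat.Coprime q (N * l))
    {ca cb : ℕ} [NeZero ca] [NeZero cb] (hca : ca = 1 ∨ ca = l) (hcb : cb = 1 ∨ cb = q)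
    {a' : FN (N * q) →ₐ[Kb] FN T} {b' : FN (N * l) →ₐ[Kb] FN T} (ha' : IsDg ca a')
    (hb' : IsDg cb b') (S : Subfield (FN T)) (h1 : ∀ z, a' z ∈ S) (h2 : ∀ y, b' y ∈ S) :
    S = ⊤ := by
  have hK : ∀ c : Kb, algebraMap Kb (FN T) c ∈ S := fun c => by
    rw [← a'.commutes c]; exact h1 _
  have hqT : q ∣ T := hT ▸ Dvd.intro_left (N * l) rfl
  have hNlT : N * l ∣ T := hT ▸ Dvd.intro q rfl
  rcases hca with hca | hca <;> rcases hcb with hcb | hcb
  · have ha := ha'.congr hca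
    have hb := hb'.congr hcb
    refine subfield_eq_top_of_W T (N * l) q hT hcop S hK hqT hNlT ?_ ?_
    · rw [← ha.map_jBar q q (Dvd.intro_left N rfl) hqT (one_mul _).symm]; exact h1 _
    · rw [← hb.map_jBar (N * l) (N * l) dvd_rfl hNlT (one_mul _).symm]; exact h2 _
  · have ha := ha'.congr hca
    have hb := hb'.congr hcb
    refine subfield_eq_top T S hK ?_ ?_
    · rw [jF, ← ha.map_jBar 1 1 (one_dvd _) (one_dvd _) (one_mul _).symm]; exact h1 _
    · rw [← hb.map_jBar (N * l) T dvd_rfl dvd_rfl (by rw [hT, mul_comm])]; exact h2 _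
  · have ha := ha'.congr hca
    have hb := hb'.congr hcb
    refine subfield_eq_top T S hK ?_ ?_
    · rw [jF, ← hb.map_jBar 1 1 (one_dvd _) (one_dvd _) (one_mul _).symm]; exact h2 _
    · rw [← ha.map_jBar (N * q) T dvd_rfl dvd_rfl (by rw [hT]; ring)]; exact h1 _
  · have ha := ha'.congr hca
    have hb := hb'.congr hcb
    refine subfield_eq_top_of_W T (N * l) q hT hcop S hK hqT hNlT ?_ ?_
    · rw [← hb.map_jBar 1 q (one_dvd _) hqT (mul_one _).symm]; exact h2 _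
    · rw [← ha.map_jBar N (N * l) (Dvd.intro q rfl) hNlT (mul_comm _ _)]; exact h1 _

/-- the degree of a degeneracy map at `l`. -/
theorem finrank_dg (hl : l.Prime) {ca : ℕ} [NeZero ca] (hca : ca = 1 ∨ ca = l) {T : ℕ} [NeZero T]
    (hT : T = N * l) {a : FN N →ₐ[Kb] FN T} (ha : IsDg ca a) :
    finrankAlong Kb a = finrankAlong Kb (heckeAlphaBar Kb N l) := by
  subst hT
  rcases hca with hca | hca
  · rw [ha.ext (isDg_alpha N l) hca]
  · rw [ha.ext (isDg_beta N l) hca, S36.Kum.finrankAlong_beta_eq_alpha' N l hl]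

/-- **[COMM] base change**: `b^* a_* = a'_* b'^*`, `a, a'` degeneracy maps at `l` (levels `N`,
`N q`), `b, b'` degeneracy maps at `q` (levels `N`, `N l`); `l ∣ N` is allowed. -/
theorem baseChange_lq (hl : l.Prime) (hq : q.Prime) (hne : q ≠ l) (hqN : ¬ q ∣ N) {T : ℕ}
    [NeZero T] (hT : T = N * l * q) {ca cb : ℕ} [NeZero ca] [NeZero cb] (hca : ca = 1 ∨ ca = l)
    (hcb : cb = 1 ∨ cb = q) {a : FN N →ₐ[Kb] FN (N * l)} {b : FN N →ₐ[Kb] FN (N * q)}
    {a' : FN (N * q) →ₐ[Kb] FN T} {b' : FN (N * l) →ₐ[Kb] FN T} (ha : IsDg ca a)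
    (ha' : IsDg ca a') (hb : IsDg cb b) (hb' : IsDg cb b') (y : JZero (N * l)) :
    jPull b (jPush a y) = jPush a' (jPull b' y) := by
  have hcop : Nat.Coprime q (N * l) :=
    Nat.Coprime.mul_right ((Nat.Prime.coprime_iff_not_dvd hq).mpr hqN)
      ((Nat.coprime_primes hq hl).mpr hne)
  refine jPull_jPush_of_square a b a' b' ((hb.comp ha').ext (ha.comp hb') (mul_comm _ _))
    (gen_square hT hcop hca hcb ha' hb') ?_ y
  rw [finrank_dg hl hca rfl ha, finrank_dg (N := N * q) hl hca (by rw [hT]; ring) ha',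
    finrankAlong_alpha_eq N q l hq hl hne]

/-- **[COMM] base change**, the other way round: `a^* b_* = b'_* a'^*`. -/
theorem baseChange_ql (hl : l.Prime) (hq : q.Prime) (hne : q ≠ l) (hqN : ¬ q ∣ N) {T : ℕ}
    [NeZero T] (hT : T = N * l * q) {ca cb : ℕ} [NeZero ca] [NeZero cb] (hca : ca = 1 ∨ ca = l)
    (hcb : cb = 1 ∨ cb = q) {a : FN N →ₐ[Kb] FN (N * l)} {b : FN N →ₐ[Kb] FN (N * q)}
    {a' : FN (N * q) →ₐ[Kb] FN T} {b' : FN (N * l) →ₐ[Kb] FN T} (ha : IsDg ca a)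
    (ha' : IsDg ca a') (hb : IsDg cb b) (hb' : IsDg cb b') (z : JZero (N * q)) :
    jPull a (jPush b z) = jPush b' (jPull a' z) := by
  have hcop : Nat.Coprime q (N * l) :=
    Nat.Coprime.mul_right ((Nat.Prime.coprime_iff_not_dvd hq).mpr hqN)
      ((Nat.coprime_primes hq hl).mpr hne)
  refine jPull_jPush_of_square b a b' a' ((ha.comp hb').ext (hb.comp ha') (mul_comm _ _))
    (fun S h1 h2 => gen_square hT hcop hca hcb ha' hb' S h2 h1) ?_ z
  rw [finrank_dg hq hcb rfl hb, finrank_dg (N := N * l) hq hcb hT hb',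
    finrankAlong_alpha_eq N l q hl hq hne.symm]

end Gen

end Fermat.Agent.ML
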