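import Fermat.Agent.ML.Ihara.Spec
import Fermat.Agent.ML.Ihara.Surj
import Fermat.Agent.ML.Ihara.PullB
import Fermat.Agent.S41.IharaH

/-!
# ML / IHARA / (I3) + (I4) : **[IH-J0]**, the torsion of `ker (α^*, β^*)` is Eisenstein

`x, y ∈ J₀(N)[m]` are the Kummer classes of good additive characters `c₁, c₂ : Γ₀(N) → ℤ/m`
(`exists_goodHom_of_torsion`); good characters are parabolic, so `c_i = bd u_i` for potentials
`u_i : ℙ¹(ℚ) → ℤ/m`.  `α^* x + β^* y` is the Kummer class of `res c₁ + c₂ ∘ conj_q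
= bd (u₁ + u₂ ∘ diag(q,1))`; if it vanishes then `u₁ + u₂ ∘ diag(q,1)` is `Γ₀(Nq)`-invariant and the
soft Ihara lemma `S41.Soft.soft_ihara` shows that `DD l (DD l₁ u_i)` is `Γ₀(N)`-invariant, i.e.
`(T_l - l - 1)(T_{l₁} - l₁ - 1) c_i = 0`; its Kummer class is `(T_l - l - 1)(T_{l₁} - l₁ - 1) x`.
-/

set_option autoImplicit false
set_option linter.unusedSectionVars false

open AlgebraicCurve ModularCurve CongruenceSubgroup OnePoint ModularForm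
open scoped MatrixGroups
open Matrix.SpecialLinearGroup (mapGL)

namespace Fermat.Agent.ML

open Fermat.Agent.GAL Fermat.Agent.GAL.PC Fermat.Agent.S41 Fermat.Agent.RIB

noncomputable section

variable {N m : ℕ} [NeZero N] [NeZero m]

/-- **(I3-a)** a good additive character is parabolic, so it has a potential on the cusps. -/
theorem goodHom_mem_HH (c : GoodHom N m) :
    (c : Additive (Gamma0 N) →+ ZMod m) ∈ HH (ZMod m) N := by
  apply mem_H_of_isParabolicHom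
  intro γ hγ
  apply c.2 γ
  rw [Matrix.trace_fin_two] at hγ
  show |(γ : SL(2, ℤ)) 0 0 + (γ : SL(2, ℤ)) 1 1| ≤ 2
  have h1 : |(γ : SL(2, ℤ)) 0 0 + (γ : SL(2, ℤ)) 1 1| ^ 2 = 4 := by rw [sq_abs]; exact hγ
  nlinarith [abs_nonneg ((γ : SL(2, ℤ)) 0 0 + (γ : SL(2, ℤ)) 1 1)]

/-- **(I3-b)** `TH` is the Hecke transfer of `GAL/Sup/Defs.lean`. -/
theorem isTransfer_TH {l : ℕ} [NeZero l] (hl : l.Prime) (hlN : ¬ l ∣ N) (φ : HH (ZMod m) N) :
    IsTransfer l (φ : Additive (Gamma0 N) →+ ZMod m)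
      (TH (ZMod m) N l φ : Additive (Gamma0 N) →+ ZMod m) :=
  fun γ σ d hd => isHeckeT_TH' hl hlN φ γ σ d
    (fun x => (EP.matT_mul_iff l x (σ x) _ _).mpr (hd x))

/-- `(T_l - l - 1)` on `HH A N` in terms of `DD` (any coefficient group). -/
theorem TH_sub_bd_gen {A : Type*} [AddCommGroup A] {l : ℕ} (hl : l.Prime) (hlN : ¬ l ∣ N)
    (u : Symb (Gamma0 N) A) :
    ∃ hu' : Soft.DD l u.1 ∈ Symb (Gamma0 N) A,
      TH A N l (bd (Gamma0 N) A u) - ((l : ℤ) + 1) • bd (Gamma0 N) A u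
        = bd (Gamma0 N) A ⟨Soft.DD l u.1, hu'⟩ := by
  have hop := isOp_T (A := A) hl hlN
  have hmem : Soft.DD l u.1 ∈ Symb (Gamma0 N) A := by
    rw [← opT_sub_eq_DD]
    exact (Symb (Gamma0 N) A).sub_mem (hop.symb u.1 u.2) ((Symb (Gamma0 N) A).smul_mem _ u.2)
  refine ⟨hmem, ?_⟩
  rw [TH, opH_bd hop, ← _root_.map_smul, ← map_sub]
  congr 1
  apply Subtype.ext
  exact opT_sub_eq_DD l u.1

/-! ### Kummer classes: multiples -/

theorem isKummer_nsmul {c : Additive (Gamma0 N) →+ ZMod m} {x : JZero N}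
    (h : IsKummer N m (chiOf c) x) (k : ℕ) : IsKummer N m (chiOf (k • c)) (k • x) := by
  induction k with
  | zero => rw [zero_nsmul, zero_nsmul, chiOf_zero]; exact isKummer_one_zero N m
  | succ k ih => rw [succ_nsmul, succ_nsmul, chiOf_add]; exact ih.mul h

theorem nsmul_gammaHom_eq_zero (c : Additive (Gamma0 N) →+ ZMod m) : m • c = 0 := by
  refine AddMonoidHom.ext fun γ => ?_
  show m • c γ = 0
  rw [nsmul_eq_mul, ZMod.natCast_self, zero_mul]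

theorem isKummer_torsion {c : Additive (Gamma0 N) →+ ZMod m} {x : JZero N}
    (h : IsKummer N m (chiOf c) x) : m • x = 0 := by
  have h1 := isKummer_nsmul h m
  rw [nsmul_gammaHom_eq_zero, chiOf_zero] at h1
  exact h1.unique (isKummer_one_zero N m)

theorem isKummer_neg {c : Additive (Gamma0 N) →+ ZMod m} {x : JZero N}
    (h : IsKummer N m (chiOf c) x) : IsKummer N m (chiOf (-c)) (-x) := by
  have hm : 1 ≤ m := Nat.pos_of_ne_zero (NeZero.ne m)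
  have h1 := isKummer_nsmul h (m - 1)
  have e1 : (m - 1) • c = -c := by
    rw [eq_neg_iff_add_eq_zero, ← succ_nsmul, Nat.sub_add_cancel hm, nsmul_gammaHom_eq_zero]
  have e2 : (m - 1) • x = -x := by
    rw [eq_neg_iff_add_eq_zero, ← succ_nsmul, Nat.sub_add_cancel hm, isKummer_torsion h]
  rwa [e1, e2] at h1

/-- the Kummer class of `(T_l - l - 1) c` is `(T_l - l - 1) x`. -/
theorem isKummer_eis (l : Nat.Primes) (hlN : ¬ (l : ℕ) ∣ N) (φ : HH (ZMod m) N) {x : JZero N}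
    (h : IsKummer N m (chiOf (φ : Additive (Gamma0 N) →+ ZMod m)) x) :
    IsKummer N m (chiOf ((TH (ZMod m) N l φ - (((l : ℕ) : ℤ) + 1) • φ : HH (ZMod m) N) :
      Additive (Gamma0 N) →+ ZMod m)) (eis N l x) := by
  have : NeZero (l : ℕ) := ⟨l.2.ne_zero⟩
  have h1 : IsKummer N m (chiOf (TH (ZMod m) N l φ : Additive (Gamma0 N) →+ ZMod m))
      (heckeOperatorBar N l x) := h.hecke l hlN (isTransfer_TH l.2 hlN φ).chiOf
  have h2 := isKummer_nsmul h ((l : ℕ) + 1)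
  have h3 := h1.mul (isKummer_neg h2)
  rw [← chiOf_add] at h3
  have e1 : ((TH (ZMod m) N l φ - (((l : ℕ) : ℤ) + 1) • φ : HH (ZMod m) N) :
      Additive (Gamma0 N) →+ ZMod m) = (TH (ZMod m) N l φ : Additive (Gamma0 N) →+ ZMod m)
        + -(((l : ℕ) + 1) • (φ : Additive (Gamma0 N) →+ ZMod m)) := by
    have : (((l : ℕ) : ℤ) + 1) = (((l : ℕ) + 1 : ℕ) : ℤ) := by push_cast; ring
    rw [this, natCast_zsmul, sub_eq_add_neg]
    rfl
  have e2 : eis N l x = heckeOperatorBar N l x + -(((l : ℕ) + 1) • x) := by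
    have : (((l : ℕ) : ℤ) + 1) = (((l : ℕ) + 1 : ℕ) : ℤ) := by push_cast; ring
    rw [eis_apply, this, natCast_zsmul, sub_eq_add_neg]
  rw [e1, e2]
  exact h3

/-- if `DD l (DD l₁ u)` is invariant then `(T_l - l - 1)(T_{l₁} - l₁ - 1)` kills the Kummer class
of `bd u`. -/
theorem eis_eis_eq_zero (l l₁ : Nat.Primes) (hlN : ¬ (l : ℕ) ∣ N) (hl₁N : ¬ (l₁ : ℕ) ∣ N)
    (u : Symb (Gamma0 N) (ZMod m)) {x : JZero N}
    (h : IsKummer N m (chiOf (bd (Gamma0 N) (ZMod m) u : Additive (Gamma0 N) →+ ZMod m)) x)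
    (hinv : Soft.IsInv (Gamma0 N) (Soft.DD l (Soft.DD l₁ u.1))) :
    eis N l (eis N l₁ x) = 0 := by
  have h1 := isKummer_eis l₁ hl₁N _ h
  obtain ⟨hu', e1⟩ := TH_sub_bd_gen l₁.2 hl₁N u
  rw [e1] at h1
  have h2 := isKummer_eis l hlN _ h1
  obtain ⟨hu'', e2⟩ := TH_sub_bd_gen l.2 hlN ⟨Soft.DD l₁ u.1, hu'⟩
  rw [e2, (bd_eq_zero_iff (⟨_, hu''⟩ : Symb (Gamma0 N) (ZMod m))).2 hinv, Submodule.coe_zero,
    chiOf_zero] at h2
  exact h2.unique (isKummer_one_zero N m)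

/-! ### the two pull-backs -/

variable (q : ℕ) [NeZero q]

theorem isKummer_pullA_bd (u : Symb (Gamma0 N) (ZMod m)) {x : JZero N}
    (h : IsKummer N m (chiOf (bd (Gamma0 N) (ZMod m) u : Additive (Gamma0 N) →+ ZMod m)) x)
    (hu' : u.1 ∈ Symb (Gamma0 (N * q)) (ZMod m)) :
    IsKummer (N * q) m (chiOf (bd (Gamma0 (N * q)) (ZMod m) ⟨u.1, hu'⟩ :
      Additive (Gamma0 (N * q)) →+ ZMod m)) (pullA N q x) := by
  refine isKummer_pullA q h _ fun γ γ' hγ => ?_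
  ext
  rw [coe_chiOf, coe_chiOf, bd_apply _ γ ∞, bd_apply _ γ' ∞, hγ]

theorem isKummer_pullB_bd (u : Symb (Gamma0 N) (ZMod m)) {x : JZero N}
    (h : IsKummer N m (chiOf (bd (Gamma0 N) (ZMod m) u : Additive (Gamma0 N) →+ ZMod m)) x)
    (hu' : (fun s => u.1 (Soft.dgQ q • s)) ∈ Symb (Gamma0 (N * q)) (ZMod m)) :
    IsKummer (N * q) m (chiOf (bd (Gamma0 (N * q)) (ZMod m) ⟨fun s => u.1 (Soft.dgQ q • s), hu'⟩ :
      Additive (Gamma0 (N * q)) →+ ZMod m)) (pullB N q x) := by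
  refine isKummer_pullB q h _ fun γ γ' hγ => ?_
  have hQ : Soft.dgQ q * mapGL ℚ (γ : SL(2, ℤ)) = mapGL ℚ (γ' : SL(2, ℤ)) * Soft.dgQ q := by
    apply Soft.castGL_injective
    rw [map_mul, map_mul, Soft.castGL_dgQ, Soft.castGL_mapGL, Soft.castGL_mapGL, hγ]
  ext
  rw [coe_chiOf, coe_chiOf, bd_apply _ γ ∞, bd_apply _ γ' (Soft.dgQ q • ∞)]
  show ZMod.stdAddChar (u.1 (Soft.dgQ q • mapGL ℚ (γ : SL(2, ℤ)) • ∞) - u.1 (Soft.dgQ q • ∞)) = _
  rw [← mul_smul, hQ, mul_smul]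

variable {q}

/-- **[IH-J0]** the torsion of the kernel of `ι_q = (α^*, β^*) : J₀(N)² → J₀(N q)` is
Eisenstein. -/
theorem iharaTors_J0 (hq : q.Prime) (hqN : ¬ q ∣ N) : IharaTors N q := by
  obtain ⟨M₀, hM₀, hsoft⟩ := Soft.soft_ihara.{0} (NeZero.pos N) hq hqN
  refine ⟨M₀ * N, Nat.mul_pos hM₀ (NeZero.pos N), ?_⟩
  intro l l₁ hlM hlq hl₁M m hm x y hx hy h0
  have : NeZero m := ⟨hm.ne'⟩
  have hlN : ¬ (l : ℕ) ∣ N := not_dvd_of_modEq_one l.2 hlM (Dvd.intro_left _ rfl)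
  have hl₁N : ¬ (l₁ : ℕ) ∣ N := not_dvd_of_modEq_one l₁.2 hl₁M (Dvd.intro _ rfl)
  obtain ⟨c₁, hc₁⟩ := exists_goodHom_of_torsion N m x hx
  obtain ⟨c₂, hc₂⟩ := exists_goodHom_of_torsion N m y hy
  obtain ⟨u₁, hu₁⟩ := bd_surjective (⟨_, goodHom_mem_HH c₁⟩ : HH (ZMod m) N)
  obtain ⟨u₂, hu₂⟩ := bd_surjective (⟨_, goodHom_mem_HH c₂⟩ : HH (ZMod m) N)
  have hk₁ : IsKummer N m
      (chiOf (bd (Gamma0 N) (ZMod m) u₁ : Additive (Gamma0 N) →+ ZMod m)) x := by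
    rw [hu₁]; exact hc₁
  have hk₂ : IsKummer N m
      (chiOf (bd (Gamma0 N) (ZMod m) u₂ : Additive (Gamma0 N) →+ ZMod m)) y := by
    rw [hu₂]; exact hc₂
  have hs₁ : u₁.1 ∈ Symb (Gamma0 (N * q)) (ZMod m) :=
    (isOp_res (Gamma0_mul_le N q)).symb u₁.1 u₁.2
  have hs₂ : (fun s => u₂.1 (Soft.dgQ q • s)) ∈ Symb (Gamma0 (N * q)) (ZMod m) := by
    have := (isOp_B (A := ZMod m) hq hqN).symb u₂.1 u₂.2
    have e : opB (ZMod m) q u₂.1 = fun s => u₂.1 (Soft.dgQ q • s) := by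
      funext s; exact opB_apply q u₂.1 s
    rwa [e] at this
  have hA := isKummer_pullA_bd q u₁ hk₁ hs₁
  have hB := isKummer_pullB_bd q u₂ hk₂ hs₂
  have hAB := hA.mul hB
  rw [h0, ← chiOf_add] at hAB
  have h1 := hAB.eq_one_of_zero
  rw [← chiOf_zero (N := N * q) (m := m)] at h1
  have h2 := chiOf_injective h1
  have h3 : bd (Gamma0 (N * q)) (ZMod m)
      ((⟨u₁.1, hs₁⟩ : Symb (Gamma0 (N * q)) (ZMod m)) + ⟨fun s => u₂.1 (Soft.dgQ q • s), hs₂⟩)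
        = 0 := by
    rw [map_add]
    exact Subtype.ext h2
  have hinv : Soft.IsInv (Gamma0 (N * q)) (fun s => u₁.1 s + u₂.1 (Soft.dgQ q • s)) :=
    (bd_eq_zero_iff _).1 h3
  obtain ⟨r1, r2⟩ := hsoft l l₁ l.2 l₁.2 (hlM.of_dvd (Dvd.intro _ rfl)) hlq hl₁M (ZMod m) _ _
    (mem_Symb_iff_soft.1 u₁.2) (mem_Symb_iff_soft.1 u₂.2) hinv
  exact ⟨eis_eis_eq_zero l l₁ hlN hl₁N u₁ hk₁ r1, eis_eis_eq_zero l l₁ hlN hl₁N u₂ hk₂ r2⟩

end

end Fermat.Agent.ML
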