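import Fermat.Agent.ML.Ihara.Spec
import Fermat.Agent.SS.Top35.Geo

/-!
# ML / IHARA : `[REL-LAST]`

On the `p`-power torsion of `ker Π_q ⊆ J₀(M q)` (`q ∤ M`, `q ≠ p`), for EVERY Frobenius lift `σ` at
`q`, the operator `t = σ + q σ⁻¹` (`= tr ρ(σ)`) satisfies `t² = (q + 1)²`, EXACTLY.
It is a formal consequence of `SS.steinGeo_all` : `(σ² - 1)(σ² - q²) = 0` on `ker Π_q`.
-/

set_option autoImplicit false
set_option linter.unusedSectionVars false

noncomputable section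

open AlgebraicCurve ModularCurve

namespace Fermat.Agent.ML

open Fermat.Agent.RIB Fermat.Agent.GAL Fermat.Agent.GAL.PC

local notation "Qbar" => AlgebraicClosure ℚ
local notation "GQ" => (AlgebraicClosure ℚ ≃ₐ[ℚ] AlgebraicClosure ℚ)

theorem gal_smul_zero (N : ℕ) [NeZero N] (σ : GQ) : σ • (0 : JZero N) = 0 :=
  map_zero (DistribSMul.toAddMonoidHom (JZero N) σ)

theorem gal_smul_add {N : ℕ} [NeZero N] (σ : GQ) (x y : JZero N) :
    σ • (x + y) = σ • x + σ • y :=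
  map_add (DistribSMul.toAddMonoidHom (JZero N) σ) x y

theorem gal_smul_nsmul {N : ℕ} [NeZero N] (σ : GQ) (n : ℕ) (x : JZero N) :
    σ • (n • x) = n • σ • x :=
  map_nsmul (DistribSMul.toAddMonoidHom (JZero N) σ) n x

variable {M q p : ℕ} [NeZero M] [NeZero q]

/-- `σ² + q² σ⁻² = q² + 1` on the `p`-power torsion of `ker Π_q`. -/
theorem stein_sq (hq : q.Prime) (hp : p.Prime) (hqp : q ≠ p) (hqM : ¬ q ∣ M)
    {A : ValuationSubring Qbar} (hA : A.LiesOverPrime q) {σ : GQ} (hσ : A.IsFrobeniusAt σ q)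
    {y : JZero (M * q)} (hy : ∃ n : ℕ, p ^ n • y = 0) (h1 : SS.pushA M q y = 0)
    (h2 : SS.pushB M q y = 0) :
    σ • σ • y + q ^ 2 • σ⁻¹ • σ⁻¹ • y = (q ^ 2 + 1) • y := by
  obtain ⟨n, hn⟩ := hy
  have h := SS.steinGeo_all M q p hq hp hqp hqM A hA σ hσ (σ⁻¹ • σ⁻¹ • y)
    ⟨n, by rw [← gal_smul_nsmul, ← gal_smul_nsmul, hn, gal_smul_zero, gal_smul_zero]⟩
    (by rw [SS.pushA_smul, SS.pushA_smul, h1, gal_smul_zero, gal_smul_zero])
    (by rw [SS.pushB_smul, SS.pushB_smul, h2, gal_smul_zero, gal_smul_zero])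
  rw [smul_inv_smul, smul_inv_smul] at h
  rw [sub_add_eq_add_sub, sub_eq_zero] at h
  exact h

/-- **[REL-LAST]** `(σ + q σ⁻¹)² = (q + 1)²` on the `p`-power torsion of `ker Π_q`. -/
theorem relLast (hq : q.Prime) (hp : p.Prime) (hqp : q ≠ p) (hqM : ¬ q ∣ M)
    {A : ValuationSubring Qbar} (hA : A.LiesOverPrime q) {σ : GQ} (hσ : A.IsFrobeniusAt σ q)
    {y : JZero (M * q)} (hy : ∃ n : ℕ, p ^ n • y = 0) (h1 : SS.pushA M q y = 0)
    (h2 : SS.pushB M q y = 0) :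
    σ • (σ • y + q • σ⁻¹ • y) + q • σ⁻¹ • (σ • y + q • σ⁻¹ • y) = (q + 1) ^ 2 • y := by
  have h := stein_sq hq hp hqp hqM hA hσ hy h1 h2
  rw [gal_smul_add, gal_smul_add, inv_smul_smul, gal_smul_nsmul, smul_inv_smul, gal_smul_nsmul,
    nsmul_add, ← mul_nsmul']
  have e : (q + 1) ^ 2 = (q ^ 2 + 1) + (q + q) := by ring
  rw [e, add_nsmul, ← h, add_nsmul, ← pow_two]
  abel

end Fermat.Agent.ML
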